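import Fermat.Agent.AV.Tors.Basic
import Fermat.Agent.AV.Tors.Alg.TensorDomain
import Fermat.Agent.Curve.ConstExt.RRDescent
import Fermat.Agent.Curve.FunctionFieldTower

/-!
# The constant extension `Frac (k ⊗ F)` of a function field
-/

set_option autoImplicit false

noncomputable section

universe u

open scoped TensorProduct
open AlgebraicCurve

namespace FermatLib.AV.Tors

variable (K : Type u) [Field K] [IsAlgClosed K] (k F : Type u) [Field k] [Algebra K k]
  [Field F] [Algebra K F]

instance instIsDomainTensorField : IsDomain (k ⊗[K] F) := isDomain_tensorProduct k F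

/-- The function field of the constant extension to `k`. -/
abbrev CF : Type u := FractionRing (k ⊗[K] F)

/-- The embedding of the original function field. -/
def iF : F →ₐ[K] CF K k F :=
  (IsScalarTower.toAlgHom K (k ⊗[K] F) (CF K k F)).comp Algebra.TensorProduct.includeRight

/-- The embedding of the constants. -/
abbrev iC : k →ₐ[K] CF K k F := IsScalarTower.toAlgHom K k (CF K k F)

theorem iF_apply (f : F) :
    iF K k F f = algebraMap (k ⊗[K] F) (CF K k F) ((1 : k) ⊗ₜ[K] f) := rfl

theorem algebraMap_tmul (l : k) (f : F) :
    algebraMap (k ⊗[K] F) (CF K k F) (l ⊗ₜ[K] f) = algebraMap k (CF K k F) l * iF K k F f := by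
  rw [iF_apply, IsScalarTower.algebraMap_apply k (k ⊗[K] F) (CF K k F), ← map_mul]
  simp [Algebra.TensorProduct.algebraMap_apply]

/-- `Frac (k ⊗ F)` is a constant extension of `F`. -/
theorem isConstantExtension_CF :
    Curve.IsConstantExtension K k (iF K k F).toRingHom where
  commutes a := by
    show iF K k F (algebraMap K F a) = _
    rw [AlgHom.commutes]
    exact IsScalarTower.algebraMap_apply K k (CF K k F) a
  linearIndependent_fin {n v} hv := by
    have h1 : LinearIndependent k fun j => (1 : k) ⊗ₜ[K] v j :=
      Module.Flat.linearIndependent_one_tmul hv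
    exact h1.map' (IsScalarTower.toAlgHom k (k ⊗[K] F) (CF K k F)).toLinearMap
      (LinearMap.ker_eq_bot.mpr (IsFractionRing.injective (k ⊗[K] F) (CF K k F)))
  adjoin_eq_top := by
    refine eq_top_iff.mpr fun z _ => ?_
    obtain ⟨a, b, -, rfl⟩ := IsFractionRing.div_surjective (k ⊗[K] F) z
    have hmem : ∀ x : k ⊗[K] F, algebraMap (k ⊗[K] F) (CF K k F) x ∈
        IntermediateField.adjoin k (Set.range (iF K k F).toRingHom) := fun x => by
      induction x using TensorProduct.induction_on with
      | zero => rw [map_zero]; exact zero_mem _
      | add x y hx hy => rw [map_add]; exact add_mem hx hy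
      | tmul l f =>
        rw [algebraMap_tmul]
        exact mul_mem (IntermediateField.algebraMap_mem _ l)
          (IntermediateField.subset_adjoin k _ ⟨f, rfl⟩)
    exact div_mem (hmem a) (hmem b)

instance instIsFunctionFieldCF [Curve.IsFunctionField K F] :
    Curve.IsFunctionField k (CF K k F) := by
  obtain ⟨x, hx, hfin⟩ := ‹Curve.IsFunctionField K F›.exists_transcendental
  obtain ⟨hfin', -⟩ := (isConstantExtension_CF K k F).finite_and_finrank_eq hx
  exact Curve.IsFunctionField.of_transcendental
    ((isConstantExtension_CF K k F).transcendental_map hx)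

end FermatLib.AV.Tors
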