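import Fermat.Agent.AV.Tors.Ext.Spz

/-!
# Local rings of the integral model of a constant extension

For a subring `B` of the function field with a place `c` of the special fibre above it we form the
local ring of the integral model at the point `c`, and the local ring of the special fibre.
-/

set_option autoImplicit false
set_option linter.unusedSectionVars false

noncomputable section

universe u

open scoped TensorProduct
open IsLocalRing AlgebraicCurve Polynomial

namespace FermatLib.AV.Tors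

variable {K : Type u} [Field K]

section LocAt

variable {T M P : Type u} [CommRing T] [Algebra K T] [Field M] [Algebra K M] [CommRing P]
  [Algebra K P] (φ : T →ₐ[K] M)

instance isPrime_ker_algHom : (RingHom.ker φ.toRingHom).IsPrime := RingHom.ker_isPrime _

/-- The localisation at the kernel of a homomorphism to a field. -/
def LocAt : Type u := Localization.AtPrime (RingHom.ker φ.toRingHom)

instance : CommRing (LocAt φ) :=
  inferInstanceAs (CommRing (Localization.AtPrime (RingHom.ker φ.toRingHom)))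

instance : Algebra T (LocAt φ) :=
  inferInstanceAs (Algebra T (Localization.AtPrime (RingHom.ker φ.toRingHom)))

instance : Algebra K (LocAt φ) :=
  inferInstanceAs (Algebra K (Localization.AtPrime (RingHom.ker φ.toRingHom)))

instance : IsScalarTower K T (LocAt φ) :=
  inferInstanceAs (IsScalarTower K T (Localization.AtPrime (RingHom.ker φ.toRingHom)))

instance : IsLocalization (RingHom.ker φ.toRingHom).primeCompl (LocAt φ) :=
  inferInstanceAs (IsLocalization (RingHom.ker φ.toRingHom).primeCompl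
    (Localization.AtPrime (RingHom.ker φ.toRingHom)))

instance : IsLocalRing (LocAt φ) :=
  inferInstanceAs (IsLocalRing (Localization.AtPrime (RingHom.ker φ.toRingHom)))

variable {φ}

theorem locAt_primeCompl (y : (RingHom.ker φ.toRingHom).primeCompl) : φ y ≠ 0 :=
  fun h => y.2 (RingHom.mem_ker.mpr h)

/-- Extension of a homomorphism to the localisation. -/
def locLift (ψ : T →ₐ[K] P) (h : ∀ t, φ t ≠ 0 → IsUnit (ψ t)) : LocAt φ →ₐ[K] P :=
  IsLocalization.liftAlgHom (M := (RingHom.ker φ.toRingHom).primeCompl) (f := ψ)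
    fun y => h _ (locAt_primeCompl y)

@[simp]
theorem locLift_algebraMap (ψ : T →ₐ[K] P) (h : ∀ t, φ t ≠ 0 → IsUnit (ψ t)) (t : T) :
    locLift ψ h (algebraMap T (LocAt φ) t) = ψ t :=
  IsLocalization.lift_eq _ t

theorem locLift_comp {Q : Type u} [CommRing Q] [Algebra K Q] (χ : LocAt φ →ₐ[K] Q)
    (χ' : LocAt φ →ₐ[K] Q) (h : ∀ t : T, χ (algebraMap T (LocAt φ) t) = χ' (algebraMap T _ t)) :
    χ = χ' :=
  IsLocalization.algHom_ext (RingHom.ker φ.toRingHom).primeCompl (AlgHom.ext h)

/-- The homomorphism itself, on the localisation. -/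
def locRes (φ : T →ₐ[K] M) : LocAt φ →ₐ[K] M := locLift φ fun _ ht => ht.isUnit

@[simp]
theorem locRes_algebraMap (φ : T →ₐ[K] M) (t : T) :
    locRes φ (algebraMap T (LocAt φ) t) = φ t :=
  locLift_algebraMap φ (fun _ ht => ht.isUnit) t

theorem isUnit_of_locRes_ne_zero {z : LocAt φ} (h : locRes φ z ≠ 0) : IsUnit z := by
  obtain ⟨⟨a, b⟩, hz⟩ := IsLocalization.surj (RingHom.ker φ.toRingHom).primeCompl z
  have ha : a ∈ (RingHom.ker φ.toRingHom).primeCompl := fun hmem => by
    have h1 := congrArg (locRes φ) hz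
    rw [map_mul, locRes, locLift_algebraMap, locLift_algebraMap,
      show φ a = 0 from hmem] at h1
    exact mul_ne_zero h (locAt_primeCompl b) h1
  have hu := IsLocalization.map_units (LocAt φ) (⟨a, ha⟩ : (RingHom.ker φ.toRingHom).primeCompl)
  rw [show algebraMap T (LocAt φ) a = z * algebraMap T (LocAt φ) b from hz.symm] at hu
  exact isUnit_of_mul_isUnit_left hu

end LocAt

namespace Spz

variable [IsAlgClosed K] {L k : Type u} [Field L] [Algebra K L] [Field k] [Algebra K k]
  (σ : Spz K L k) (F : Type u) [Field F] [Algebra K F]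

/-- Integral tensors inside the generic function field. -/
def toL : σ.VA ⊗[K] F →ₐ[K] CF K L F :=
  (IsScalarTower.toAlgHom K (L ⊗[K] F) (CF K L F)).comp (σ.incl F)

/-- Integral tensors in the special function field. -/
def toK : σ.VA ⊗[K] F →ₐ[K] CF K k F :=
  (IsScalarTower.toAlgHom K (k ⊗[K] F) (CF K k F)).comp (σ.redT F)

theorem toK_ne_zero_iff {a : σ.VA ⊗[K] F} : σ.toK F a ≠ 0 ↔ σ.redT F a ≠ 0 :=
  map_ne_zero_iff _ (IsFractionRing.injective (k ⊗[K] F) (CF K k F))

theorem toL_injective : Function.Injective (σ.toL F) :=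
  (IsFractionRing.injective (L ⊗[K] F) (CF K L F)).comp (σ.incl_injective F)

theorem toL_ne_zero_of_toK {a : σ.VA ⊗[K] F} (h : σ.toK F a ≠ 0) : σ.toL F a ≠ 0 :=
  fun h0 => h (by rw [σ.toL_injective F (h0.trans (map_zero _).symm), map_zero])

/-- The local ring of the special fibre. -/
abbrev Rw : Type u := LocAt (σ.toK F)

/-- The local ring of the special fibre inside the generic function field. -/
def wL : σ.Rw F →ₐ[K] CF K L F :=
  locLift (σ.toL F) fun _ h => (σ.toL_ne_zero_of_toK F h).isUnit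

theorem wL_algebraMap (t : σ.VA ⊗[K] F) :
    σ.wL F (algebraMap _ (σ.Rw F) t) = σ.toL F t :=
  locLift_algebraMap _ _ t

/-- Reduction. -/
def wK : σ.Rw F →ₐ[K] CF K k F := locRes (σ.toK F)

theorem wK_algebraMap (t : σ.VA ⊗[K] F) :
    σ.wK F (algebraMap _ (σ.Rw F) t) = σ.toK F t :=
  locRes_algebraMap _ t

theorem wL_injective : Function.Injective (σ.wL F) := by
  intro x y hxy
  obtain ⟨⟨a, b⟩, hx⟩ := IsLocalization.surj (RingHom.ker (σ.toK F).toRingHom).primeCompl x
  obtain ⟨⟨a', b'⟩, hy⟩ := IsLocalization.surj (RingHom.ker (σ.toK F).toRingHom).primeCompl y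
  have h1 : σ.wL F x * σ.toL F b = σ.toL F a := by
    rw [← σ.wL_algebraMap F b, ← σ.wL_algebraMap F a, ← map_mul, hx]
  have h2 : σ.wL F y * σ.toL F b' = σ.toL F a' := by
    rw [← σ.wL_algebraMap F b', ← σ.wL_algebraMap F a', ← map_mul, hy]
  have h : a * b' = a' * b := σ.toL_injective F (by
    rw [map_mul, map_mul, ← h1, ← h2, hxy]; ring)
  refine ((IsLocalization.map_units (σ.Rw F) b).mul (IsLocalization.map_units (σ.Rw F) b')
    ).mul_left_inj.mp ?_
  rw [← mul_assoc, hx, mul_left_comm, hy, ← map_mul, ← map_mul, h, mul_comm]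

theorem exists_scale {x : CF K L F} (hx : x ≠ 0) :
    ∃ (l : L) (z : σ.Rw F), l ≠ 0 ∧ σ.wK F z ≠ 0 ∧ x = algebraMap L _ l * σ.wL F z := by
  obtain ⟨a, b, hb, rfl⟩ := IsFractionRing.div_surjective (L ⊗[K] F) x
  have ha : a ≠ 0 := fun h => hx (by rw [h, map_zero, zero_div])
  obtain ⟨la, a', hla, ha', rfl⟩ := σ.exists_content F ha
  obtain ⟨lb, b', hlb, hb', rfl⟩ := σ.exists_content F (nonZeroDivisors.ne_zero hb)
  have hb'' : b' ∈ (RingHom.ker (σ.toK F).toRingHom).primeCompl := fun h =>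
    (σ.toK_ne_zero_iff F).mpr hb' h
  obtain ⟨z, hz⟩ : ∃ z : σ.Rw F, z * algebraMap _ (σ.Rw F) b' = algebraMap _ (σ.Rw F) a' :=
    ⟨_, IsLocalization.mk'_spec (σ.Rw F) a' ⟨b', hb''⟩⟩
  refine ⟨la / lb, z, div_ne_zero hla hlb, fun h0 => ?_, ?_⟩
  · have h1 := congrArg (σ.wK F) hz
    rw [map_mul, h0, zero_mul, wK_algebraMap] at h1
    exact (σ.toK_ne_zero_iff F).mpr ha' h1.symm
  · have h1 : σ.wL F z * σ.toL F b' = σ.toL F a' := by
      rw [← σ.wL_algebraMap F b', ← σ.wL_algebraMap F a', ← map_mul, hz]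
    have hb0 : σ.toL F b' ≠ 0 := σ.toL_ne_zero_of_toK F ((σ.toK_ne_zero_iff F).mpr hb')
    have hsmul : ∀ (l : L) (t : σ.VA ⊗[K] F), algebraMap (L ⊗[K] F) (CF K L F) (l • σ.incl F t) =
        algebraMap L (CF K L F) l * σ.toL F t := fun l t => by
      rw [Algebra.smul_def, map_mul, ← IsScalarTower.algebraMap_apply]
      rfl
    rw [hsmul, hsmul, ← h1, map_div₀]
    field_simp [hb0, (map_ne_zero (algebraMap L (CF K L F))).mpr hlb]

variable {F} (B : Subalgebra K F)

/-- The inclusion of the integral tensors of `B`. -/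
def inclB : σ.VA ⊗[K] B →ₐ[K] σ.VA ⊗[K] F :=
  Algebra.TensorProduct.map (AlgHom.id K σ.VA) B.val

/-- The generic fibre of the model of `B`. -/
def imgB : Subalgebra K (CF K L F) :=
  ((IsScalarTower.toAlgHom K (L ⊗[K] F) (CF K L F)).comp
    (Algebra.TensorProduct.map (AlgHom.id K L) B.val)).range

/-- The generic fibre of the model of `B` is integrally closed in the function field. -/
def NormalB (L : Type u) [Field L] [Algebra K L] (B : Subalgebra K F) : Prop :=
  ∀ y : CF K L F, IsIntegral (((IsScalarTower.toAlgHom K (L ⊗[K] F) (CF K L F)).comp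
    (Algebra.TensorProduct.map (AlgHom.id K L) B.val)).range) y →
      y ∈ ((IsScalarTower.toAlgHom K (L ⊗[K] F) (CF K L F)).comp
        (Algebra.TensorProduct.map (AlgHom.id K L) B.val)).range

theorem toL_inclB_mem (b : σ.VA ⊗[K] B) : σ.toL F (σ.inclB B b) ∈ imgB (L := L) B := by
  refine ⟨Algebra.TensorProduct.map σ.VA.val (AlgHom.id K B) b, ?_⟩
  show algebraMap (L ⊗[K] F) (CF K L F) (Algebra.TensorProduct.map (AlgHom.id K L) B.val
    (Algebra.TensorProduct.map σ.VA.val (AlgHom.id K B) b)) =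
      algebraMap (L ⊗[K] F) (CF K L F) (σ.incl F (σ.inclB B b))
  congr 1
  induction b using TensorProduct.induction_on with
  | zero => simp
  | tmul x y => simp [incl, inclB]
  | add x y hx hy => simp only [map_add, hx, hy]

variable (c : Place k (CF K k F)) (hB : ∀ b : B, iF K k F b ∈ c.toValuationSubring)

/-- The valuation ring of the special place. -/
abbrev cAlg : Subalgebra K (CF K k F) :=
  valAlg c.toValuationSubring fun a => by
    rw [IsScalarTower.algebraMap_apply K k (CF K k F)]; exact c.algebraMap_mem' _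

include hB in
theorem toK_inclB_mem (t : σ.VA ⊗[K] B) : σ.toK F (σ.inclB B t) ∈ cAlg c := by
  induction t using TensorProduct.induction_on with
  | zero => simp
  | tmul x y =>
    show algebraMap (k ⊗[K] F) (CF K k F) (σ.redT F (σ.inclB B (x ⊗ₜ y))) ∈ _
    rw [inclB, redT, Algebra.TensorProduct.map_tmul, Algebra.TensorProduct.map_tmul,
      AlgHom.id_apply, AlgHom.id_apply, algebraMap_tmul]
    exact mul_mem (c.algebraMap_mem' _) (hB y)
  | add x y hx hy => rw [map_add, map_add]; exact add_mem hx hy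

/-- The integral tensors of `B` in the valuation ring of the special place. -/
def toC : σ.VA ⊗[K] B →ₐ[K] cAlg c :=
  ((σ.toK F).comp (σ.inclB B)).codRestrict (cAlg c) (σ.toK_inclB_mem B c hB)

/-- The value at the special point. -/
def resC : σ.VA ⊗[K] B →ₐ[K] ResidueField (cAlg c) :=
  (IsScalarTower.toAlgHom K (cAlg c) (ResidueField (cAlg c))).comp (σ.toC B c hB)

theorem isUnit_toC {t : σ.VA ⊗[K] B} (h : σ.resC B c hB t ≠ 0) : IsUnit (σ.toC B c hB t) := by
  by_contra hu
  exact h ((IsLocalRing.residue_eq_zero_iff _).mpr hu)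

theorem toK_ne_zero_of_resC {t : σ.VA ⊗[K] B} (h : σ.resC B c hB t ≠ 0) :
    σ.toK F (σ.inclB B t) ≠ 0 := fun h0 => by
  refine h ?_
  rw [resC, AlgHom.comp_apply, show σ.toC B c hB t = 0 from Subtype.ext h0, map_zero]

/-- The local ring of the model at the special point. -/
abbrev Rc : Type u := LocAt (σ.resC B c hB)

/-- Reduction at the special point. -/
def cC : σ.Rc B c hB →ₐ[K] cAlg c := locLift (σ.toC B c hB) fun _ h => σ.isUnit_toC B c hB h

/-- The inclusion into the local ring of the special fibre. -/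
def cW : σ.Rc B c hB →ₐ[K] σ.Rw F :=
  locLift ((IsScalarTower.toAlgHom K (σ.VA ⊗[K] F) (σ.Rw F)).comp (σ.inclB B)) fun t h =>
    IsLocalization.map_units (σ.Rw F)
      (⟨σ.inclB B t, fun h0 => σ.toK_ne_zero_of_resC B c hB h h0⟩ :
        (RingHom.ker (σ.toK F).toRingHom).primeCompl)

theorem cC_algebraMap (t : σ.VA ⊗[K] B) :
    σ.cC B c hB (algebraMap _ (σ.Rc B c hB) t) = σ.toC B c hB t :=
  locLift_algebraMap _ _ t

theorem cW_algebraMap (t : σ.VA ⊗[K] B) :
    σ.cW B c hB (algebraMap _ (σ.Rc B c hB) t) =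
      algebraMap _ (σ.Rw F) (σ.inclB B t) :=
  locLift_algebraMap _ _ t

theorem isLocalHom_cC : IsLocalHom (σ.cC B c hB).toRingHom := by
  refine ⟨fun z hz => isUnit_of_locRes_ne_zero fun h0 => ?_⟩
  have h : (IsScalarTower.toAlgHom K (cAlg c) (ResidueField (cAlg c))).comp (σ.cC B c hB) =
      locRes (σ.resC B c hB) := by
    refine locLift_comp _ _ fun t => ?_
    rw [AlgHom.comp_apply, locRes_algebraMap, cC_algebraMap]
    rfl
  rw [← h] at h0
  exact (IsLocalRing.residue_eq_zero_iff (σ.cC B c hB z)).mp h0 hz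

theorem wK_cW (r : σ.Rc B c hB) : σ.wK F (σ.cW B c hB r) = (σ.cC B c hB r : CF K k F) := by
  have h : (σ.wK F).comp (σ.cW B c hB) = (cAlg c).val.comp (σ.cC B c hB) := by
    refine locLift_comp _ _ fun t => ?_
    rw [AlgHom.comp_apply, AlgHom.comp_apply, cC_algebraMap, cW_algebraMap]
    exact σ.wK_algebraMap F _
  exact AlgHom.congr_fun h r

theorem wL_cW_algebraMap (t : σ.VA ⊗[K] B) :
    σ.wL F (σ.cW B c hB (algebraMap _ _ t)) = σ.toL F (σ.inclB B t) := by
  rw [cW_algebraMap]
  exact σ.wL_algebraMap F _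

/-- A monic relation with fractional coefficients becomes integral after clearing a denominator. -/
theorem exists_mul_isIntegral {E : Type u} [Field E] [Algebra K E] {T : Type u} [CommRing T]
    (A : Subalgebra K E) (d : T →+* E) (hdA : ∀ t, d t ∈ A) (P : T → Prop) (h1 : P 1)
    (hmul : ∀ s t, P s → P t → P (s * t)) (p : E[X]) (hp : p.Monic)
    (hcoef : ∀ i, ∃ t, P t ∧ p.coeff i * d t ∈ A) {x : E} (hx : p.eval x = 0) :
    ∃ t, P t ∧ IsIntegral A (x * d t) := by
  classical
  choose bb hbb hbmem using hcoef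
  let b₀ := ∏ i ∈ Finset.range p.natDegree, bb i
  have hb₀ : P b₀ := Finset.prod_induction _ P (fun s t => hmul s t) h1 fun i _ => hbb i
  have hcmem : ∀ i, (p.scaleRoots (d b₀)).coeff i ∈ A := by
    intro i
    rw [coeff_scaleRoots]
    rcases Nat.lt_or_ge i p.natDegree with hi | hi
    · obtain ⟨j, hj⟩ : ∃ j, p.natDegree - i = j + 1 := ⟨p.natDegree - i - 1, by omega⟩
      have hsplit : d b₀ = d (bb i) * d (∏ l ∈ (Finset.range p.natDegree).erase i, bb l) := by
        rw [← map_mul, Finset.mul_prod_erase _ _ (Finset.mem_range.mpr hi)]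
      rw [hj, pow_succ', hsplit, ← mul_assoc, ← mul_assoc]
      exact mul_mem (mul_mem (hbmem i) (hdA _)) (pow_mem (mul_mem (hdA _) (hdA _)) _)
    · rcases eq_or_lt_of_le hi with h | h
      · rw [← h, hp.coeff_natDegree, Nat.sub_self, pow_zero, mul_one]; exact one_mem _
      · rw [coeff_eq_zero_of_natDegree_lt h, zero_mul]; exact zero_mem _
  have hsub : (↑(p.scaleRoots (d b₀)).coeffs : Set E) ⊆ (A.toSubring : Set E) := fun y hy => by
    obtain ⟨i, -, rfl⟩ := mem_coeffs_iff.mp hy
    exact hcmem i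
  refine ⟨b₀, hb₀, (p.scaleRoots (d b₀)).toSubring A.toSubring hsub, ?_, ?_⟩
  · exact (monic_toSubring _ _ _).mpr (monic_scaleRoots_iff _ |>.mpr hp)
  · rw [← aeval_def, ← eval_map_algebraMap]
    show ((((p.scaleRoots (d b₀)).toSubring _ _).map A.toSubring.subtype)).eval (x * d b₀) = 0
    rw [map_toSubring, mul_comm, scaleRoots_eval_mul, hx, mul_zero]

/-- An element of all valuation rings over the generic fibre near `c` is, up to a denominator,
integral over the generic fibre. -/
theorem exists_isIntegral_mul (z : CF K L F)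
    (hz : ∀ W : ValuationSubring (CF K L F), (∀ y ∈ imgB (L := L) B, y ∈ W) →
      (∀ b, σ.resC B c hB b ≠ 0 → (σ.toL F (σ.inclB B b))⁻¹ ∈ W) → z ∈ W) :
    ∃ b, σ.resC B c hB b ≠ 0 ∧ IsIntegral (imgB (L := L) B) (z * σ.toL F (σ.inclB B b)) := by
  let d : σ.VA ⊗[K] B →+* CF K L F := ((σ.toL F).comp (σ.inclB B)).toRingHom
  have hdA : ∀ b, d b ∈ imgB (L := L) B := σ.toL_inclB_mem B
  have hd : ∀ b, σ.resC B c hB b ≠ 0 → d b ≠ 0 := fun b hb =>
    σ.toL_ne_zero_of_toK F (σ.toK_ne_zero_of_resC B c hB hb)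
  have h1 : σ.resC B c hB 1 ≠ 0 := by rw [map_one]; exact one_ne_zero
  have hmul : ∀ s t, σ.resC B c hB s ≠ 0 → σ.resC B c hB t ≠ 0 → σ.resC B c hB (s * t) ≠ 0 :=
    fun s t hs ht => by rw [map_mul]; exact mul_ne_zero hs ht
  let S : Subring (CF K L F) :=
    { carrier := {y | ∃ b, σ.resC B c hB b ≠ 0 ∧ y * d b ∈ imgB (L := L) B}
      mul_mem' := by
        rintro x y ⟨b, hb, hx⟩ ⟨b', hb', hy⟩
        refine ⟨b * b', hmul _ _ hb hb', ?_⟩
        rw [map_mul, mul_mul_mul_comm]
        exact mul_mem hx hy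
      one_mem' := ⟨1, h1, by rw [map_one, mul_one]; exact one_mem _⟩
      zero_mem' := ⟨1, h1, by rw [zero_mul]; exact zero_mem _⟩
      add_mem' := by
        rintro x y ⟨b, hb, hx⟩ ⟨b', hb', hy⟩
        refine ⟨b * b', hmul _ _ hb hb', ?_⟩
        rw [map_mul, show (x + y) * (d b * d b') = x * d b * d b' + y * d b' * d b by ring]
        exact add_mem (mul_mem hx (hdA b')) (mul_mem hy (hdA b))
      neg_mem' := by
        rintro x ⟨b, hb, hx⟩
        exact ⟨b, hb, by rw [neg_mul]; exact neg_mem hx⟩ }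
  have h : z ∈ (⨅ V : {V : ValuationSubring (CF K L F) //
      (S : Set (CF K L F)) ⊆ V.toSubring}, V.1.toSubring) := by
    rw [Subring.mem_iInf]
    rintro ⟨W, hW⟩
    refine hz W (fun y hy => hW ⟨1, h1, by rwa [map_one, mul_one]⟩) fun b hb => hW ⟨b, hb, ?_⟩
    show (d b)⁻¹ * d b ∈ _
    rw [inv_mul_cancel₀ (hd b hb)]
    exact one_mem _
  rw [iInf_valuationSubring_superset] at h
  obtain ⟨p, hp, hpz⟩ := h
  let T := Subring.closure (S : Set (CF K L F))
  have hev : (p.map T.subtype).eval z = 0 := by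
    rw [eval_map]
    exact hpz
  have hco : ∀ i, ∃ t, σ.resC B c hB t ≠ 0 ∧
      (p.map T.subtype).coeff i * d t ∈ imgB (L := L) B := fun i => by
    have hmem : (p.map T.subtype).coeff i ∈ S := by
      rw [coeff_map]
      exact (Subring.closure_eq S).le (p.coeff i).2
    exact hmem
  obtain ⟨t, ht, hti⟩ := exists_mul_isIntegral (imgB (L := L) B) d hdA
    (fun t => σ.resC B c hB t ≠ 0) h1 hmul (p.map T.subtype) (hp.map _) hco (x := z) hev
  exact ⟨t, ht, hti⟩

/-- Hartogs: an element of the local ring of the special fibre which lies in all valuation rings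
over the generic fibre near `c` lies in the local ring at `c`. -/
theorem exists_cW_eq (hN : NormalB L B) (z : σ.Rw F)
    (hz : ∀ W : ValuationSubring (CF K L F), (∀ y ∈ imgB (L := L) B, y ∈ W) →
      (∀ b, σ.resC B c hB b ≠ 0 → (σ.toL F (σ.inclB B b))⁻¹ ∈ W) → σ.wL F z ∈ W) :
    ∃ r : σ.Rc B c hB, σ.cW B c hB r = z := by
  obtain ⟨b₀, hb₀, hint⟩ := σ.exists_isIntegral_mul B c hB _ hz
  obtain ⟨s, hs⟩ := hN _ hint
  obtain ⟨⟨a₀, b₁⟩, hzab⟩ := IsLocalization.surj (RingHom.ker (σ.toK F).toRingHom).primeCompl z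
  have hs' : Algebra.TensorProduct.map (AlgHom.id K L) B.val s * σ.incl F b₁ =
      σ.incl F (a₀ * σ.inclB B b₀) := by
    apply IsFractionRing.injective (L ⊗[K] F) (CF K L F)
    have h1 : σ.wL F z * σ.toL F b₁ = σ.toL F a₀ := by
      rw [← σ.wL_algebraMap F b₁, ← σ.wL_algebraMap F a₀, ← map_mul, hzab]
    rw [map_mul, map_mul, map_mul, show algebraMap (L ⊗[K] F) (CF K L F)
      (Algebra.TensorProduct.map (AlgHom.id K L) B.val s) =
        σ.wL F z * σ.toL F (σ.inclB B b₀) from hs]
    show σ.wL F z * σ.toL F (σ.inclB B b₀) * σ.toL F b₁ =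
      σ.toL F a₀ * σ.toL F (σ.inclB B b₀)
    rw [mul_right_comm, ← h1]
  obtain ⟨a, ha⟩ := σ.mem_range_of_mul_mem F
    ((σ.toK_ne_zero_iff F).mp (locAt_primeCompl b₁)) ⟨_, hs'.symm⟩
  obtain ⟨a', ha', -⟩ := σ.exists_map_eq_of_map_eq F B ha.symm
  let b₂ : (RingHom.ker (σ.resC B c hB).toRingHom).primeCompl := ⟨b₀, fun h => hb₀ h⟩
  refine ⟨IsLocalization.mk' (σ.Rc B c hB) a' b₂, σ.wL_injective F ?_⟩
  have h2 := congrArg (fun r => σ.wL F (σ.cW B c hB r))
    (IsLocalization.mk'_spec (σ.Rc B c hB) a' b₂)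
  simp only [map_mul, wL_cW_algebraMap] at h2
  apply mul_right_cancel₀ (σ.toL_ne_zero_of_toK F (σ.toK_ne_zero_of_resC B c hB hb₀))
  refine h2.trans (Eq.trans ?_ hs)
  show σ.toL F (σ.inclB B a') = algebraMap (L ⊗[K] F) (CF K L F) _
  rw [show σ.inclB B a' = a from ha']
  exact congrArg (algebraMap (L ⊗[K] F) (CF K L F)) ha

end Spz

end FermatLib.AV.Tors
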