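import Fermat.Agent.AV.Tors.Ext.CF
import Fermat.Agent.AV.Tors.Alg.Specialization
import Fermat.Agent.AV.Tors.Height.Extend
import Fermat.Agent.Curve.PlaceExtras
import Fermat.Agent.Curve.PlaceConstruction
import Fermat.Agent.Curve.RepartitionQuot
import Fermat.Agent.Curve.ConstExt.PicMap

/-!
# Values at places, places of a constant extension with given values
-/

set_option autoImplicit false

noncomputable section

universe u

open AlgebraicCurve IsLocalRing
open scoped TensorProduct Polynomial

namespace FermatLib.AV.Tors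

section Value

variable {k E : Type u} [Field k] [Field E] [Algebra k E]

/-- The function `f` takes the value `x` at the place `v`. -/
def IsValue (v : Place k E) (f : E) (x : k) : Prop :=
  f - algebraMap k E x ∈ Curve.ordGE v 1

variable {v : Place k E} {f f' : E} {x x' : k}

theorem IsValue.mem (h : IsValue v f x) : f ∈ v.toValuationSubring := by
  rw [Curve.mem_valuationSubring_iff]
  have h1 := Curve.ordGE_anti (m := 0) zero_le_one h
  have h2 := (Curve.mem_valuationSubring_iff v).mp (v.algebraMap_mem' x)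
  simpa using add_mem h1 h2

theorem IsValue.eq (h : IsValue v f x) (h' : IsValue v f x') : x = x' := by
  by_contra hne
  have h1 : algebraMap k E (x' - x) ∈ Curve.ordGE v 1 := by
    rw [map_sub, ← sub_sub_sub_cancel_left (algebraMap k E x) (algebraMap k E x') f]
    exact sub_mem h h'
  have := Curve.le_ord_of_mem h1 ((map_ne_zero _).mpr (sub_ne_zero.mpr (Ne.symm hne)))
  rw [Curve.ord_algebraMap] at this
  omega

theorem isValue_algebraMap (v : Place k E) (x : k) : IsValue v (algebraMap k E x) x := by
  rw [IsValue, sub_self]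
  exact zero_mem _

theorem IsValue.add (h : IsValue v f x) (h' : IsValue v f' x') : IsValue v (f + f') (x + x') := by
  rw [IsValue, map_add, add_sub_add_comm]
  exact add_mem h h'

theorem IsValue.mul (h : IsValue v f x) (h' : IsValue v f' x') : IsValue v (f * f') (x * x') := by
  rw [IsValue, map_mul, show f * f' - algebraMap k E x * algebraMap k E x' =
    (f - algebraMap k E x) * f' + algebraMap k E x * (f' - algebraMap k E x') by ring]
  refine add_mem ?_ ?_
  · simpa using Curve.mul_mem_ordGE h ((Curve.mem_valuationSubring_iff v).mp h'.mem)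
  · rw [← Algebra.smul_def]
    exact Submodule.smul_mem _ _ h'

theorem IsValue.inv (h : IsValue v f x) (hx : x ≠ 0) : IsValue v f⁻¹ x⁻¹ := by
  obtain ⟨hf, hord⟩ : f ≠ 0 ∧ v.ord f = 0 := by
    have hx' : algebraMap k E x ≠ 0 := (map_ne_zero _).mpr hx
    obtain ⟨h1, h2⟩ := Curve.ord_add_eq_left_of_mem v hx' (g := f - algebraMap k E x)
      (by rw [Curve.ord_algebraMap]; exact h)
    rw [add_sub_cancel] at h1 h2
    exact ⟨h1, by rw [h2, Curve.ord_algebraMap]⟩
  rw [IsValue, map_inv₀, inv_sub_inv hf ((map_ne_zero _).mpr hx), div_eq_mul_inv, mul_inv,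
    ← neg_sub f, neg_mul]
  refine neg_mem ?_
  rw [mul_comm f⁻¹, ← mul_assoc, mul_comm _ (algebraMap k E x)⁻¹, mul_assoc, ← map_inv₀,
    ← Algebra.smul_def]
  refine Submodule.smul_mem _ _ ?_
  have := Curve.mul_mem_ordGE h (Curve.mem_ordGE_of_le (v := v) (f := f⁻¹) (n := 0)
    (by rw [v.ord_inv, hord, neg_zero]))
  simpa using this

theorem IsValue.eq_zero_iff (h : IsValue v f x) : x = 0 ↔ f ∈ Curve.ordGE v 1 := by
  refine ⟨fun hx => by simpa [IsValue, hx] using h, fun hf => h.eq ?_⟩
  simpa [IsValue] using hf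

theorem IsValue.ord_eq_zero (h : IsValue v f x) (hx : x ≠ 0) : f ≠ 0 ∧ v.ord f = 0 := by
  obtain ⟨h1, h2⟩ := Curve.ord_add_eq_left_of_mem v ((map_ne_zero (algebraMap k E)).mpr hx)
    (g := f - algebraMap k E x) (by rw [Curve.ord_algebraMap]; exact h)
  rw [add_sub_cancel] at h1 h2
  exact ⟨h1, by rw [h2, Curve.ord_algebraMap]⟩

variable [IsAlgClosed k] [Curve.IsFunctionField k E] {K : Type u} [Field K] [Algebra K k]
  [Algebra K E] [IsScalarTower K k E]

theorem exists_isValue (v : Place k E) {f : E} (hf : f ∈ v.toValuationSubring) :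
    ∃ x, IsValue v f x := by
  obtain ⟨c, hc⟩ := Curve.exists_sub_smul_mem_ordGE v (Curve.deg_eq_one v)
    (n := 0) (t := (1 : E)) one_ne_zero v.ord_one ((Curve.mem_valuationSubring_iff v).mp hf)
  refine ⟨c, ?_⟩
  rwa [IsValue, Algebra.algebraMap_eq_smul_one]

/-- The value, as a homomorphism on the valuation ring of the place. -/
def valueHom (v : Place k E) (hv : ∀ c : K, algebraMap K E c ∈ v.toValuationSubring) :
    valAlg v.toValuationSubring hv →ₐ[K] k where
  toFun f := (exists_isValue v f.2).choose
  map_one' := (exists_isValue v (1 : valAlg v.toValuationSubring hv).2).choose_spec.eq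
    (by simpa using isValue_algebraMap v (1 : k))
  map_mul' f f' := (exists_isValue v (f * f').2).choose_spec.eq
    ((exists_isValue v f.2).choose_spec.mul (exists_isValue v f'.2).choose_spec)
  map_zero' := (exists_isValue v (0 : valAlg v.toValuationSubring hv).2).choose_spec.eq
    (by simpa using isValue_algebraMap v (0 : k))
  map_add' f f' := (exists_isValue v (f + f').2).choose_spec.eq
    ((exists_isValue v f.2).choose_spec.add (exists_isValue v f'.2).choose_spec)
  commutes' c := (exists_isValue v (algebraMap K (valAlg v.toValuationSubring hv) c).2).choose_spec.eq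
    (by
      show IsValue v (algebraMap K E c) _
      rw [IsScalarTower.algebraMap_apply K k E]
      exact isValue_algebraMap v _)

theorem isValue_valueHom (v : Place k E) (hv : ∀ c : K, algebraMap K E c ∈ v.toValuationSubring)
    (f : valAlg v.toValuationSubring hv) : IsValue v (f : E) (valueHom v hv f) :=
  (exists_isValue v f.2).choose_spec

instance isLocalHom_valueHom (v : Place k E)
    (hv : ∀ c : K, algebraMap K E c ∈ v.toValuationSubring) :
    IsLocalHom (valueHom v hv).toRingHom := by
  refine ⟨fun a ha => ?_⟩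
  have hx : valueHom v hv a ≠ 0 := ha.ne_zero
  have h := isValue_valueHom v hv a
  refine IsUnit.of_mul_eq_one ⟨(a : E)⁻¹, (h.inv hx).mem⟩ (Subtype.ext ?_)
  exact mul_inv_cancel₀ (h.ord_eq_zero hx).1

end Value

section Over

variable (K : Type u) [Field K] [IsAlgClosed K] (k F : Type u) [Field k] [Algebra K k]
  [Field F] [Algebra K F] [Curve.IsFunctionField K F]

/-- The valuation ring of `F` under a place of the constant extension. -/
abbrev underRing (c : Place k (CF K k F)) : ValuationSubring F :=
  c.toValuationSubring.comap (iF K k F).toRingHom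

omit [Curve.IsFunctionField K F] in
theorem algebraMap_mem_underRing (c : Place k (CF K k F)) (a : K) :
    algebraMap K F a ∈ underRing K k F c := by
  rw [ValuationSubring.mem_comap]
  show iF K k F (algebraMap K F a) ∈ _
  rw [AlgHom.commutes, IsScalarTower.algebraMap_apply K k (CF K k F)]
  exact c.algebraMap_mem' _

theorem underRing_placeExt (v : Place K F) :
    underRing K k F ((isConstantExtension_CF K k F).placeExt v) = v.toValuationSubring := by
  exact ((isConstantExtension_CF K k F).liesOverAlong_placeExt v).symm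

variable {K k F}

omit [Curve.IsFunctionField K F] in
theorem ord_iF_eq_zero_of_underRing {c : Place k (CF K k F)} (h : underRing K k F c = ⊤)
    (f : F) : c.ord (iF K k F f) = 0 := by
  have hmem : ∀ g : F, iF K k F g ∈ c.toValuationSubring := fun g => by
    have : g ∈ underRing K k F c := h.symm ▸ ValuationSubring.mem_top g
    exact this
  have h1 := Curve.ord_nonneg_of_mem_place c (hmem f)
  have h2 := Curve.ord_nonneg_of_mem_place c (hmem f⁻¹)
  rw [map_inv₀, c.ord_inv] at h2
  omega

theorem exists_place_underRing {c : Place k (CF K k F)} (h : underRing K k F c ≠ ⊤) :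
    ∃ v : Place K F, c = (isConstantExtension_CF K k F).placeExt v := by
  obtain ⟨f, hf⟩ : ∃ f : F, iF K k F f ∉ c.toValuationSubring := by
    by_contra hall
    push Not at hall
    exact h (SetLike.ext fun g => ⟨fun _ => ValuationSubring.mem_top g, fun _ => hall g⟩)
  exact (isConstantExtension_CF K k F).exists_eq_placeExt_of_ord_ne_zero
    (ne_of_lt ((Curve.notMem_iff_ord_neg c).mp hf))

theorem divisorExt_eq_zero_of_underRing {c : Place k (CF K k F)} (N : Divisor K F)
    (h : ∀ v : Place K F, N v ≠ 0 → underRing K k F c ≠ v.toValuationSubring) :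
    (isConstantExtension_CF K k F).divisorExt N c = 0 := by
  by_cases hc : ∃ v, c = (isConstantExtension_CF K k F).placeExt v
  · obtain ⟨v, rfl⟩ := hc
    rw [Curve.IsConstantExtension.divisorExt_apply_placeExt]
    by_contra hv
    exact h v hv (underRing_placeExt K k F v)
  · exact Curve.IsConstantExtension.divisorExt_apply_eq_zero _ N (not_exists.mp hc)

/-- Every homomorphism on a valuation ring to an algebraically closed field is the value at a
place of the constant extension. -/
theorem exists_place_of_hom [IsAlgClosed k] (W : ValuationSubring F)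
    (hW : ∀ a : K, algebraMap K F a ∈ W) (φ : valAlg W hW →ₐ[K] k) [IsLocalHom φ.toRingHom] :
    ∃ c : Place k (CF K k F), underRing K k F c = W ∧
      ∀ b : valAlg W hW, IsValue c (iF K k F b) (φ b) := by
  classical
  let g : k ⊗[K] valAlg W hW →ₐ[K] CF K k F :=
    (IsScalarTower.toAlgHom K (k ⊗[K] F) (CF K k F)).comp
      (Algebra.TensorProduct.map (AlgHom.id K k) (valAlg W hW).val)
  have hg : Function.Injective g := by
    have h := Module.Flat.lTensor_preserves_injective_linearMap (M := k)
      (valAlg W hW).val.toLinearMap Subtype.val_injective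
    exact (IsFractionRing.injective (k ⊗[K] F) (CF K k F)).comp h
  let e : k ⊗[K] valAlg W hW ≃+* g.toRingHom.range :=
    RingEquiv.ofBijective g.toRingHom.rangeRestrict
      ⟨fun a b h => hg (congrArg Subtype.val h), g.toRingHom.rangeRestrict_surjective⟩
  let π : k ⊗[K] valAlg W hW →ₐ[K] k :=
    Algebra.TensorProduct.lift (AlgHom.id K k) φ fun _ _ => Commute.all _ _
  obtain ⟨V, hV, ψ, hψ, hker⟩ := exists_specialization g.toRingHom.range
    (π.toRingHom.comp e.symm.toRingHom)
  have hψg : ∀ z, ψ ⟨g z, hV ⟨z, rfl⟩⟩ = π z := fun z => by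
    refine (hψ ⟨g z, ⟨z, rfl⟩⟩).trans ?_
    have he : e.symm ⟨g z, ⟨z, rfl⟩⟩ = z := e.symm_apply_eq.mpr (Subtype.ext rfl)
    exact congrArg π he
  have hgc : ∀ a : k, g (a ⊗ₜ 1) = algebraMap k (CF K k F) a := fun a => by
    simp [g, algebraMap_tmul, map_one]
  have hgb : ∀ b : valAlg W hW, g (1 ⊗ₜ b) = iF K k F b := fun b => by
    simp [g, iF_apply]
  have hk : ∀ a : k, algebraMap k (CF K k F) a ∈ V := fun a => hgc a ▸ hV ⟨_, rfl⟩
  -- a transcendental function in `W` gives a nonzero relation
  obtain ⟨u, hu, -⟩ := ‹Curve.IsFunctionField K F›.exists_transcendental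
  obtain ⟨b, hb⟩ : ∃ b : valAlg W hW, Transcendental K (b : F) := by
    rcases W.mem_or_inv_mem u with h | h
    · exact ⟨⟨u, h⟩, hu⟩
    · exact ⟨⟨u⁻¹, h⟩, fun h' => hu (IsAlgebraic.inv_iff.mp h')⟩
  have htop : V ≠ ⊤ := by
    intro hV'
    have hfield : IsField V := by
      refine ⟨⟨0, 1, zero_ne_one⟩, mul_comm, fun {x} hx => ⟨⟨(x : CF K k F)⁻¹, ?_⟩, ?_⟩⟩
      · exact (SetLike.ext_iff.mp hV' _).mpr (ValuationSubring.mem_top _)
      · exact Subtype.ext (mul_inv_cancel₀ fun h => hx (Subtype.ext h))
    have hinj : Function.Injective ψ :=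
      (RingHom.injective_iff_ker_eq_bot ψ).mpr
        (hker.trans (IsLocalRing.isField_iff_maximalIdeal_eq.mp hfield))
    let z : k ⊗[K] valAlg W hW := φ b ⊗ₜ 1 - 1 ⊗ₜ b
    have hz : g z = 0 := congrArg Subtype.val (hinj ((hψg z).trans (by simp [z, π]) |>.trans
      (map_zero ψ).symm) : (⟨g z, hV ⟨z, rfl⟩⟩ : V) = 0)
    rw [map_sub, hgc, hgb, sub_eq_zero] at hz
    refine (isConstantExtension_CF K k F).transcendental_map hb ?_
    rw [AlgHom.toRingHom_eq_coe, RingHom.coe_coe, ← hz]
    exact isAlgebraic_algebraMap _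
  let c : Place k (CF K k F) := Curve.placeOfValuationSubring V hk htop
  have hval : ∀ b : valAlg W hW, IsValue c (iF K k F b) (φ b) := by
    intro b
    let z : k ⊗[K] valAlg W hW := 1 ⊗ₜ b - φ b ⊗ₜ 1
    have hz : (⟨g z, hV ⟨z, rfl⟩⟩ : V) ∈ IsLocalRing.maximalIdeal V := by
      rw [← hker, RingHom.mem_ker, hψg]
      simp [z, π]
    have hz' := (Curve.residue_eq_zero_iff_mem_ordGE (v := c)
      (⟨g z, hV ⟨z, rfl⟩⟩ : V)).mp ((IsLocalRing.residue_eq_zero_iff _).mpr hz)
    change g z ∈ Curve.ordGE c 1 at hz'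
    rwa [map_sub, hgc, hgb] at hz'
  refine ⟨c, ?_, hval⟩
  refine le_antisymm ?_ fun f hf => ?_
  · intro f hf
    by_contra hfW
    have hi : f⁻¹ ∈ W := (W.mem_or_inv_mem f).resolve_left hfW
    let b : valAlg W hW := ⟨f⁻¹, hi⟩
    have hf0 : f ≠ 0 := fun h => hfW (h ▸ zero_mem W)
    have hb0 : φ b = 0 := by
      by_contra h0
      obtain ⟨y, hy⟩ := (IsUnit.of_map φ.toRingHom b (isUnit_iff_ne_zero.mpr h0)).exists_right_inv
      have hy' : f⁻¹ * (y : F) = 1 := congrArg Subtype.val hy
      exact hfW (show f ∈ W from (eq_inv_of_mul_eq_one_left ((mul_comm _ _).trans hy')).trans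
        (inv_inv f) ▸ y.2)
    have h1 := hval b
    rw [IsValue, hb0, map_zero, sub_zero, show ((b : F)) = f⁻¹ from rfl, map_inv₀] at h1
    have hne : iF K k F f ≠ 0 := (map_ne_zero _).mpr hf0
    have h2 := Curve.le_ord_of_mem h1 (inv_ne_zero hne)
    have h3 := Curve.ord_nonneg_of_mem_place c (f := iF K k F f) hf
    rw [c.ord_inv] at h2
    omega
  · show iF K k F f ∈ V
    exact hgb ⟨f, hf⟩ ▸ hV ⟨_, rfl⟩

/-- The transcendental values of a homomorphism make it injective on the tensor product. -/
theorem injective_lift_of_transcendental [IsAlgClosed k] (L : Type u) [Field L] [Algebra K L]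
    [IsAlgClosed L] (j : k →ₐ[K] L) (χ : F →ₐ[K] L) (h : ¬ ∀ f, χ f ∈ j.range) :
    Function.Injective (Algebra.TensorProduct.lift j χ fun _ _ => mul_comm _ _ :
      k ⊗[K] F →ₐ[K] L) := by
  classical
  set Φ : k ⊗[K] F →ₐ[K] L := Algebra.TensorProduct.lift j χ fun _ _ => mul_comm _ _
  obtain ⟨f₀, hf₀⟩ := not_forall.mp h
  let : Algebra k L := j.toRingHom.toAlgebra
  have : IsScalarTower K k L := IsScalarTower.of_algebraMap_eq fun a => (j.commutes a).symm
  have htr : Transcendental k (χ f₀) := fun halg => by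
    obtain ⟨a, ha⟩ := minpoly.mem_range_of_degree_eq_one k (χ f₀)
      (IsAlgClosed.degree_eq_one_of_irreducible k (minpoly.irreducible halg.isIntegral))
    exact hf₀ ⟨a, ha⟩
  have htr₀ : Transcendental K f₀ := fun halg => htr ((halg.algHom χ).tower_top k)
  let t : k ⊗[K] F := 1 ⊗ₜ f₀
  let : Algebra k[X] (k ⊗[K] F) := (Polynomial.aeval t).toRingHom.toAlgebra
  let : Algebra K[X] F := (Polynomial.aeval f₀).toRingHom.toAlgebra
  have hF : ∀ f : F, IsAlgebraic k[X] ((1 : k) ⊗ₜ[K] f : k ⊗[K] F) := by
    intro f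
    have hfin := Curve.finiteDimensional_adjoin_of_transcendental htr₀
    have h1 : IsAlgebraic (Algebra.adjoin K {f₀}) f := by
      open scoped IntermediateField.algebraAdjoinAdjoin in
      exact (Algebra.IsAlgebraic.trans (Algebra.adjoin K {f₀})
        (IntermediateField.adjoin K {f₀}) F).isAlgebraic f
    let σ : K[X] →+* Algebra.adjoin K {f₀} :=
      (Polynomial.aeval (⟨f₀, Algebra.self_mem_adjoin_singleton K f₀⟩ :
        Algebra.adjoin K {f₀})).toRingHom
    have hσ : Function.Surjective σ := by
      rintro ⟨y, hy⟩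
      obtain ⟨P, rfl⟩ := (Algebra.adjoin_singleton_eq_range_aeval K f₀).le hy
      exact ⟨P, Subtype.ext (Polynomial.aeval_subalgebra_coe _ _ _)⟩
    have h2 : IsAlgebraic K[X] f :=
      IsAlgebraic.of_ringHom_of_comp_eq (f := σ) (g := RingHom.id F) h1 hσ Function.injective_id
        (RingHom.ext fun P => (Polynomial.aeval_subalgebra_coe P _
          ⟨f₀, Algebra.self_mem_adjoin_singleton K f₀⟩))
    refine h2.ringHom_of_comp_eq (f := Polynomial.mapRingHom (algebraMap K k))
      (g := (Algebra.TensorProduct.includeRight : F →ₐ[K] k ⊗[K] F).toRingHom)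
      (Polynomial.map_injective _ (algebraMap K k).injective) (RingHom.ext fun P => ?_)
    change Polynomial.aeval t (P.map (algebraMap K k)) =
      (Algebra.TensorProduct.includeRight : F →ₐ[K] k ⊗[K] F) (Polynomial.aeval f₀ P)
    rw [Polynomial.aeval_map_algebraMap, ← Polynomial.aeval_algHom_apply]
    rfl
  have hD : ∀ z : k ⊗[K] F, IsAlgebraic k[X] z := by
    intro z
    induction z using TensorProduct.induction_on with
    | zero => exact isAlgebraic_zero
    | add a b ha hb => exact ha.add hb
    | tmul l f =>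
      have h1 : l ⊗ₜ[K] f = algebraMap k[X] (k ⊗[K] F) (Polynomial.C l) * (1 ⊗ₜ[K] f) := by
        change _ = Polynomial.aeval t (Polynomial.C l) * _
        simp [Algebra.TensorProduct.algebraMap_apply]
      rw [h1]
      exact (isAlgebraic_algebraMap _).mul (hF f)
  rw [injective_iff_map_eq_zero]
  intro z hz
  by_contra hz0
  obtain ⟨r, hr, q, hq⟩ := (hD z).exists_nonzero_dvd (mem_nonZeroDivisors_of_ne_zero hz0)
  refine hr (transcendental_iff.mp htr r ?_)
  let Φk : k ⊗[K] F →ₐ[k] L :=
    { Φ.toRingHom with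
      commutes' := fun a => by
        show Φ (algebraMap k (k ⊗[K] F) a) = j a
        simp [Φ, Algebra.TensorProduct.algebraMap_apply] }
  calc Polynomial.aeval (χ f₀) r = Polynomial.aeval (Φk t) r := by simp [Φk, Φ, t]
    _ = Φ (algebraMap k[X] (k ⊗[K] F) r) := Polynomial.aeval_algHom_apply Φk t r
    _ = 0 := by rw [hq, map_mul, hz, zero_mul]

end Over

end FermatLib.AV.Tors
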