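import Fermat.Agent.AV.Tors.Ext.Local
import Fermat.Agent.AV.Tors.Ext.Value
import Fermat.Agent.Curve.PlaceExpansion
import Fermat.Agent.Curve.PlaceConstruction
import Fermat.Agent.Curve.PoleDegree
import Fermat.Agent.Curve.ConstExt.PicMap

/-!
# The models of the valuation rings of the function field are normal
-/

set_option autoImplicit false
set_option linter.unusedSectionVars false

noncomputable section

universe u

open AlgebraicCurve IsLocalRing
open scoped TensorProduct

namespace FermatLib.AV.Tors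

variable {K : Type u} [Field K] [IsAlgClosed K] {F : Type u} [Field F] [Algebra K F]
  [Curve.IsFunctionField K F]

theorem exists_const_sub_mem_ordGE (v : Place K F) {f : F} (hf : f ∈ Curve.ordGE v 0) :
    ∃ c : K, f - algebraMap K F c ∈ Curve.ordGE v 1 := by
  obtain ⟨c, hc⟩ := Curve.exists_sub_const_mem_maximalIdeal v (Curve.deg_eq_one v)
    ⟨f, (Curve.mem_valuationSubring_iff v).mpr hf⟩
  refine ⟨c, ?_⟩
  set x := (⟨f, (Curve.mem_valuationSubring_iff v).mpr hf⟩ : v.toValuationSubring) -
    algebraMap K v.toValuationSubring c with hx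
  show (x : F) ∈ _
  rcases eq_or_ne (x : F) 0 with h0 | h0
  · rw [h0]; exact zero_mem _
  have hle := Curve.ord_nonneg_of_mem_place v x.2
  refine Curve.mem_ordGE_of_le (le_of_not_gt fun hlt => (mem_maximalIdeal x).mp hc ?_)
  rw [← v.adicValuation_coe_eq_one_iff, v.adicValuation_eq_exp_neg_ord h0,
    show v.ord (x : F) = 0 by omega]
  rfl

/-- Integrality at the extension of a place is integrality of the coefficients. -/
theorem mem_ordGE_of_sum_mem {L : Type u} [Field L] [Algebra K L]
    [Curve.IsFunctionField L (CF K L F)] (v : Place K F) {ι : Type*} (s : Finset ι) {l : ι → L}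
    (hl : LinearIndepOn K l (s : Set ι)) (f : ι → F)
    (h : ∑ i ∈ s, algebraMap L (CF K L F) (l i) * iF K L F (f i) ∈
      ((isConstantExtension_CF K L F).placeExt v).toValuationSubring) :
    ∀ i ∈ s, f i ∈ v.toValuationSubring := by
  set w := (isConstantExtension_CF K L F).placeExt v
  have hiF : ∀ {n : ℤ} {x : F}, x ∈ Curve.ordGE v n → iF K L F x ∈ Curve.ordGE w n := by
    intro n x hx
    rcases Curve.mem_ordGE.mp hx with rfl | hx
    · rw [map_zero]; exact zero_mem _
    · refine Curve.mem_ordGE_of_le ?_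
      show n ≤ w.ord ((iF K L F).toRingHom x)
      rwa [(isConstantExtension_CF K L F).ord_placeExt]
  have hconst : ∀ a : L, algebraMap L (CF K L F) a ∈ Curve.ordGE w 0 := fun a =>
    (Curve.mem_valuationSubring_iff w).mp (w.algebraMap_mem' a)
  obtain ⟨t, ht0, ht⟩ := Curve.exists_ord_eq_int v 1
  suffices H : ∀ n : ℕ, (∀ i ∈ s, f i ∈ Curve.ordGE v (-(n : ℤ))) →
      ∀ i ∈ s, f i ∈ Curve.ordGE v 0 by
    intro i hi
    refine (Curve.mem_valuationSubring_iff v).mpr
      (H (∑ j ∈ s, (v.ord (f j)).natAbs) (fun j hj => Curve.mem_ordGE_of_le ?_) i hi)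
    have : (v.ord (f j)).natAbs ≤ ∑ j ∈ s, (v.ord (f j)).natAbs :=
      Finset.single_le_sum (f := fun j => (v.ord (f j)).natAbs) (fun _ _ => Nat.zero_le _) hj
    omega
  intro n
  induction n with
  | zero => intro hn i hi; simpa using hn i hi
  | succ n ih =>
    intro hn
    refine ih fun i hi => ?_
    have hmul : ∀ i ∈ s, t ^ (n + 1) * f i ∈ Curve.ordGE v 0 := fun i hi => by
      have h1 : t ^ (n + 1) ∈ Curve.ordGE v ((n + 1 : ℕ) : ℤ) :=
        Curve.mem_ordGE_of_le (by rw [Curve.ord_pow, ht, mul_one])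
      simpa using Curve.mul_mem_ordGE h1 (hn i hi)
    have hc : ∀ i, ∃ c : K, i ∈ s → t ^ (n + 1) * f i - algebraMap K F c ∈ Curve.ordGE v 1 :=
      fun i => by
        by_cases hi : i ∈ s
        · obtain ⟨c, hc⟩ := exists_const_sub_mem_ordGE v (hmul i hi)
          exact ⟨c, fun _ => hc⟩
        · exact ⟨0, fun h => absurd h hi⟩
    choose c hc using hc
    set γ : L := ∑ j ∈ s, c j • l j with hγ
    have hsum : algebraMap L (CF K L F) γ ∈ Curve.ordGE w 1 := by
      have h1 : iF K L F (t ^ (n + 1)) *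
          ∑ j ∈ s, algebraMap L (CF K L F) (l j) * iF K L F (f j) ∈ Curve.ordGE w 1 := by
        have h2 : iF K L F (t ^ (n + 1)) ∈ Curve.ordGE w ((n + 1 : ℕ) : ℤ) :=
          hiF (Curve.mem_ordGE_of_le (by rw [Curve.ord_pow, ht, mul_one]))
        exact Curve.ordGE_anti (by push_cast; omega)
          (Curve.mul_mem_ordGE h2 ((Curve.mem_valuationSubring_iff w).mp h))
      have h2 : ∀ j ∈ s, algebraMap L (CF K L F) (l j) *
          iF K L F (t ^ (n + 1) * f j - algebraMap K F (c j)) ∈ Curve.ordGE w 1 := fun j hj => by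
        simpa using Curve.mul_mem_ordGE (hconst (l j)) (hiF (hc j hj))
      have h3 := sub_mem h1 (Submodule.sum_mem _ h2)
      convert h3 using 1
      rw [hγ, map_sum, Finset.mul_sum, ← Finset.sum_sub_distrib]
      refine Finset.sum_congr rfl fun j _ => ?_
      rw [map_sub, map_mul, AlgHom.commutes, Algebra.smul_def, map_mul,
        ← IsScalarTower.algebraMap_apply]
      ring
    have hγ0 : γ = 0 := by
      by_contra hne
      have := Curve.le_ord_of_mem hsum ((map_ne_zero _).mpr hne)
      rw [Curve.ord_algebraMap] at this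
      omega
    have hci : c i = 0 := linearIndepOn_finset_iff.mp hl c (hγ.symm.trans hγ0) i hi
    have := hc i hi
    rw [hci, map_zero, sub_zero] at this
    rcases eq_or_ne (f i) 0 with h0 | h0
    · rw [h0]; exact zero_mem _
    refine Curve.mem_ordGE_of_le ?_
    have h4 := Curve.le_ord_of_mem this (mul_ne_zero (pow_ne_zero _ ht0) h0)
    rw [v.ord_mul (pow_ne_zero _ ht0) h0, Curve.ord_pow, ht, mul_one] at h4
    push_cast at h4
    omega

/-- The integral model of any valuation ring of `F` over the constants has integrally closed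
generic fibre. -/
theorem normalB_valAlg (L : Type u) [Field L] [Algebra K L] [IsAlgClosed L]
    (W : ValuationSubring F) (hW : ∀ a : K, algebraMap K F a ∈ W) :
    Spz.NormalB L (valAlg W hW) := by
  classical
  intro y hy
  obtain ⟨u, hu, _⟩ := ‹Curve.IsFunctionField K F›.exists_transcendental
  have := isIntegrallyClosed_tensorProduct (K := K) F L hu
  have : IsDomain (F ⊗[K] L) := isDomain_tensorProduct F L
  have hLF : IsIntegrallyClosed (L ⊗[K] F) :=
    IsIntegrallyClosed.of_equiv (Algebra.TensorProduct.comm K F L).toRingEquiv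
  set Ψ : L ⊗[K] valAlg W hW →ₐ[K] L ⊗[K] F :=
    Algebra.TensorProduct.map (AlgHom.id K L) (valAlg W hW).val
  set ψ : L ⊗[K] valAlg W hW →ₐ[K] CF K L F :=
    (IsScalarTower.toAlgHom K (L ⊗[K] F) (CF K L F)).comp Ψ
  have hyW : ∀ U : ValuationSubring (CF K L F), (∀ z ∈ ψ.range, z ∈ U) → y ∈ U := by
    intro U hU
    obtain ⟨p, hp, hpy⟩ := hy
    let f : ψ.range →+* U := Subring.inclusion (S := ψ.range.toSubring) (T := U.toSubring) hU
    have : IsIntegral U y := ⟨p.map f, hp.map f, by rw [Polynomial.eval₂_map]; exact hpy⟩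
    obtain ⟨z, hz⟩ := IsIntegrallyClosed.isIntegral_iff.mp this
    exact hz ▸ z.2
  obtain ⟨t, rfl⟩ : ∃ t : L ⊗[K] F, algebraMap _ (CF K L F) t = y := by
    refine IsIntegrallyClosed.isIntegral_iff.mp ?_
    obtain ⟨p, hp, hpy⟩ := hy
    let f : ψ.range →+* (algebraMap (L ⊗[K] F) (CF K L F)).range :=
      Subring.inclusion (S := ψ.range.toSubring) fun z ⟨a, ha⟩ => ⟨Ψ a, ha⟩
    let e := RingEquiv.ofBijective (algebraMap (L ⊗[K] F) (CF K L F)).rangeRestrict
      ⟨fun a b h => IsFractionRing.injective (L ⊗[K] F) (CF K L F) (congrArg Subtype.val h),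
        RingHom.rangeRestrict_surjective _⟩
    refine ⟨p.map (e.symm.toRingHom.comp f), hp.map _, ?_⟩
    rw [Polynomial.eval₂_map]
    refine Eq.trans (congrArg (fun φ => Polynomial.eval₂ φ y p) (RingHom.ext fun a => ?_)) hpy
    show (algebraMap (L ⊗[K] F) (CF K L F)) (e.symm (f a)) = (a : CF K L F)
    exact congrArg Subtype.val (e.apply_symm_apply (f a))
  let β := Module.Basis.ofVectorSpace K L
  obtain ⟨c, hc⟩ : ∃ c : _ →₀ F, c.sum (fun i f => β i ⊗ₜ[K] f) = t :=
    TensorProduct.eq_repr_basis_left β t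
  have hmem : ∀ i ∈ c.support, c i ∈ valAlg W hW := fun i hi => by
    by_cases hO : W = ⊤
    · exact (mem_valAlg W hW).mpr (hO ▸ ValuationSubring.mem_top _)
    let v : Place K F := Curve.placeOfValuationSubring W hW hO
    show c i ∈ v.toValuationSubring
    refine mem_ordGE_of_sum_mem (L := L) v c.support
      (β.linearIndependent.linearIndepOn _) c ?_ i hi
    have heq : ∑ i ∈ c.support, algebraMap L (CF K L F) (β i) * iF K L F (c i) =
        algebraMap (L ⊗[K] F) (CF K L F) t := by
      rw [← hc, Finsupp.sum, map_sum]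
      exact Finset.sum_congr rfl fun i _ => (algebraMap_tmul K L F _ _).symm
    rw [heq]
    refine hyW _ ?_
    rintro _ ⟨a, rfl⟩
    induction a using TensorProduct.induction_on with
    | zero => rw [map_zero]; exact zero_mem _
    | add a b ha hb => rw [map_add]; exact add_mem ha hb
    | tmul l b =>
      show algebraMap (L ⊗[K] F) (CF K L F) (Ψ (l ⊗ₜ b)) ∈ _
      rw [Algebra.TensorProduct.map_tmul, AlgHom.id_apply, algebraMap_tmul]
      refine mul_mem (Place.algebraMap_mem' _ l) ?_
      have hvb : (b : F) ∈ v.toValuationSubring := b.2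
      rw [(isConstantExtension_CF K L F).liesOverAlong_placeExt v] at hvb
      exact ValuationSubring.mem_comap.mp hvb
  refine ⟨c.support.attach.sum fun i => β i.1 ⊗ₜ ⟨c i.1, hmem i.1 i.2⟩, ?_⟩
  show algebraMap (L ⊗[K] F) (CF K L F) (Ψ _) = _
  congr 1
  rw [map_sum, ← hc, Finsupp.sum, ← Finset.sum_attach c.support fun i => β i ⊗ₜ[K] c i]
  exact Finset.sum_congr rfl fun i _ => Algebra.TensorProduct.map_tmul _ _ _ _

end FermatLib.AV.Tors
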