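import Fermat.Agent.AV.Tors.Ext.CF
import Fermat.Agent.AV.Tors.Height.Extend

/-!
# Specialisation of constants

A valuation ring of the field `L` of constants with a homomorphism to the field `k` on its
residues; Gauss' lemma for the constant extensions.
-/

set_option autoImplicit false

noncomputable section

universe u

open scoped TensorProduct
open IsLocalRing

namespace FermatLib.AV.Tors

variable {K : Type u} [Field K]

/-- A specialisation of constants from `L` to `k`. -/
structure Spz (K : Type u) [Field K] (L k : Type u) [Field L] [Algebra K L] [Field k]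
    [Algebra K k] where
  V : ValuationSubring L
  hV : ∀ c : K, algebraMap K L c ∈ V
  red : valAlg V hV →ₐ[K] k
  ker_red : ∀ x, red x = 0 ↔ x ∈ maximalIdeal (valAlg V hV)

namespace Spz

variable {L k : Type u} [Field L] [Algebra K L] [Field k] [Algebra K k] (σ : Spz K L k)

/-- The valuation ring as a `K`-algebra. -/
abbrev VA : Subalgebra K L := valAlg σ.V σ.hV

theorem red_inv {x : L} (hx : x ∈ σ.V) (hx' : x⁻¹ ∈ σ.V) (h0 : x ≠ 0) :
    σ.red ⟨x, hx⟩ ≠ 0 := fun h => by
  apply (σ.ker_red _).mp h
  exact .of_mul_eq_one (a := (⟨x, hx⟩ : σ.VA)) ⟨x⁻¹, hx'⟩ (Subtype.ext (mul_inv_cancel₀ h0))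

theorem red_eq_zero_of_inv_notMem {x : L} (hx : x ∈ σ.V) (hx' : x⁻¹ ∉ σ.V) :
    σ.red ⟨x, hx⟩ = 0 := by
  refine (σ.ker_red _).mpr fun hu => hx' ?_
  obtain ⟨⟨y, hy⟩, hxy⟩ := isUnit_iff_exists_inv.mp hu
  rwa [← eq_inv_of_mul_eq_one_right (congrArg Subtype.val hxy)]

variable (F : Type u) [Field F] [Algebra K F]

/-- Inclusion of the integral tensors. -/
def incl : σ.VA ⊗[K] F →ₐ[K] L ⊗[K] F := Algebra.TensorProduct.map σ.VA.val (AlgHom.id K F)

/-- Reduction of the integral tensors. -/
def redT : σ.VA ⊗[K] F →ₐ[K] k ⊗[K] F := Algebra.TensorProduct.map σ.red (AlgHom.id K F)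

theorem incl_injective : Function.Injective (σ.incl F) :=
  Module.Flat.rTensor_preserves_injective_linearMap (M := F) σ.VA.val.toLinearMap
    Subtype.val_injective

/-- Gauss' content: every tensor is a multiple of a primitive one. -/
theorem exists_content {t : L ⊗[K] F} (ht : t ≠ 0) :
    ∃ (l : L) (a : σ.VA ⊗[K] F), l ≠ 0 ∧ σ.redT F a ≠ 0 ∧ t = l • σ.incl F a := by
  classical
  let β := Module.Basis.ofVectorSpace K F
  let βL := Algebra.TensorProduct.basis L β
  set c := βL.repr t with hc
  have hne : c.support.Nonempty := by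
    rw [Finsupp.support_nonempty_iff]
    exact fun h => ht (βL.repr.map_eq_zero_iff.mp h)
  obtain ⟨i, hi, hmax⟩ := Finset.exists_max_image c.support (fun j => σ.V.valuation (c j)) hne
  have hci : c i ≠ 0 := Finsupp.mem_support_iff.mp hi
  have hint : ∀ j, c j / c i ∈ σ.V := fun j => by
    by_cases hj : j ∈ c.support
    · rw [← σ.V.valuation_le_one_iff, map_div₀]
      exact div_le_one_of_le₀ (hmax j hj) zero_le
    · rw [Finsupp.notMem_support_iff.mp hj, zero_div]
      exact zero_mem _
  let a : σ.VA ⊗[K] F := ∑ j ∈ c.support, (⟨c j / c i, hint j⟩ : σ.VA) ⊗ₜ[K] β j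
  refine ⟨c i, a, hci, fun h => ?_, ?_⟩
  · let βk := Algebra.TensorProduct.basis k β
    have h' := congrArg (fun z => βk.repr z i) h
    simp only [a, redT, map_sum, Algebra.TensorProduct.map_tmul, AlgHom.id_apply, map_zero,
      Finsupp.finsetSum_apply, Finsupp.zero_apply] at h'
    rw [Finset.sum_eq_single i] at h'
    · rw [Algebra.TensorProduct.basis_repr_tmul] at h'
      simp only [Module.Basis.repr_self, Finsupp.mapRange_single, Finsupp.smul_apply,
        Finsupp.single_eq_same, map_one, smul_eq_mul, mul_one] at h'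
      refine σ.red_inv (hint i) ?_ (div_ne_zero hci hci) h'
      rw [inv_div]; exact hint i
    · intro j _ hji
      rw [Algebra.TensorProduct.basis_repr_tmul]
      simp [hji]
    · exact fun h => absurd hi h
  · conv_lhs => rw [← βL.linearCombination_repr t]
    rw [Finsupp.linearCombination_apply, Finsupp.sum, map_sum, Finset.smul_sum]
    refine Finset.sum_congr rfl fun j _ => ?_
    rw [incl, Algebra.TensorProduct.map_tmul, AlgHom.id_apply, Algebra.TensorProduct.basis_apply,
      TensorProduct.smul_tmul', TensorProduct.smul_tmul', smul_eq_mul, smul_eq_mul, mul_one, ← hc]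
    exact congrArg (· ⊗ₜ[K] β j) (mul_div_cancel₀ (c j) hci).symm

/-- Scalars of the valuation ring act on the integral tensors. -/
theorem smul_incl {l : L} (hl : l ∈ σ.V) (a : σ.VA ⊗[K] F) :
    l • σ.incl F a = σ.incl F ((⟨l, hl⟩ : σ.VA) ⊗ₜ[K] 1 * a) := by
  rw [map_mul, incl, Algebra.TensorProduct.map_tmul, Algebra.smul_def]
  rfl

variable [IsAlgClosed K]

/-- A tensor whose product with a primitive one is integral is integral. -/
theorem mem_range_of_mul_mem {t : L ⊗[K] F} {b : σ.VA ⊗[K] F} (hb : σ.redT F b ≠ 0)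
    (h : t * σ.incl F b ∈ (σ.incl F).range) : t ∈ (σ.incl F).range := by
  rcases eq_or_ne t 0 with rfl | ht
  · exact zero_mem _
  obtain ⟨l, a, hl, ha, rfl⟩ := σ.exists_content F ht
  by_cases hlV : l ∈ σ.V
  · exact ⟨_, (σ.smul_incl F hlV a).symm⟩
  exfalso
  obtain ⟨c, hc⟩ := h
  have hl' : l⁻¹ ∈ σ.V := (σ.V.mem_or_inv_mem l).resolve_left hlV
  have he : (⟨l⁻¹, hl'⟩ : σ.VA) ⊗ₜ[K] 1 * c = a * b := by
    apply σ.incl_injective F
    rw [← σ.smul_incl F hl', map_mul, show σ.incl F c = l • σ.incl F a * σ.incl F b from hc,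
      smul_mul_assoc, smul_smul, inv_mul_cancel₀ hl, one_smul]
  have := congrArg (σ.redT F) he
  rw [map_mul, map_mul, redT, Algebra.TensorProduct.map_tmul,
    σ.red_eq_zero_of_inv_notMem hl' (by rwa [inv_inv]), TensorProduct.zero_tmul, zero_mul] at this
  exact mul_ne_zero ha hb this.symm

omit [IsAlgClosed K] in
/-- An integral tensor coming from a subspace comes from it integrally. -/
theorem exists_map_eq_of_map_eq (B : Subalgebra K F) {s : L ⊗[K] B} {a : σ.VA ⊗[K] F}
    (h : Algebra.TensorProduct.map (AlgHom.id K L) B.val s = σ.incl F a) :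
    ∃ a' : σ.VA ⊗[K] B,
      Algebra.TensorProduct.map (AlgHom.id K σ.VA) B.val a' = a ∧
      Algebra.TensorProduct.map σ.VA.val (AlgHom.id K B) a' = s := by
  obtain ⟨P, hP⟩ := B.val.toLinearMap.exists_leftInverse_of_injective
    (LinearMap.ker_eq_bot.mpr Subtype.val_injective)
  have hPP : ∀ b : B, P b = b := fun b => LinearMap.congr_fun hP b
  refine ⟨P.lTensor σ.VA a, ?_⟩
  have hnat : ∀ z : σ.VA ⊗[K] F, P.lTensor L (σ.incl F z) =
      Algebra.TensorProduct.map σ.VA.val (AlgHom.id K B) (P.lTensor σ.VA z) := fun z => by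
    induction z using TensorProduct.induction_on with
    | zero => simp
    | tmul x y => simp [incl]
    | add x y hx hy => simp only [map_add, hx, hy]
  have hret : ∀ z : L ⊗[K] B,
      P.lTensor L (Algebra.TensorProduct.map (AlgHom.id K L) B.val z) = z := fun z => by
    induction z using TensorProduct.induction_on with
    | zero => simp
    | tmul x y => simp [hPP]
    | add x y hx hy => simp only [map_add, hx, hy]
  have hcomm : ∀ z : σ.VA ⊗[K] B, σ.incl F (Algebra.TensorProduct.map (AlgHom.id K σ.VA) B.val z) =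
      Algebra.TensorProduct.map (AlgHom.id K L) B.val
        (Algebra.TensorProduct.map σ.VA.val (AlgHom.id K B) z) := fun z => by
    induction z using TensorProduct.induction_on with
    | zero => simp
    | tmul x y => simp [incl]
    | add x y hx hy => simp only [map_add, hx, hy]
  have h1 : Algebra.TensorProduct.map σ.VA.val (AlgHom.id K B) (P.lTensor σ.VA a) = s := by
    rw [← hnat, ← h, hret]
  exact ⟨σ.incl_injective F (by rw [hcomm, h1, h]), h1⟩

omit [IsAlgClosed K] in
/-- A finite independent family becomes, after a change within its span, a family with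
independent reductions. -/
theorem exists_reduced_basis (n : ℕ) : ∀ W : Submodule L (L ⊗[K] F),
    FiniteDimensional L W → Module.finrank L W = n →
      ∃ a : Fin n → σ.VA ⊗[K] F, (∀ i, σ.incl F (a i) ∈ W) ∧
        LinearIndependent k fun i => σ.redT F (a i) := by
  classical
  induction n with
  | zero => exact fun W _ _ => ⟨Fin.elim0, fun i => i.elim0, linearIndependent_empty_type⟩
  | succ n ih =>
    intro W hWf hW
    obtain ⟨w, hw, hw0⟩ := W.ne_bot_iff.mp fun hbot => by
      rw [hbot, finrank_bot] at hW; exact absurd hW (by omega)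
    obtain ⟨l, a, hl, ha, rfl⟩ := σ.exists_content F hw0
    let β := Module.Basis.ofVectorSpace K F
    let βk := Algebra.TensorProduct.basis k β
    let βL := Algebra.TensorProduct.basis L β
    obtain ⟨i, hi⟩ : ∃ i, βk.repr (σ.redT F a) i ≠ 0 := by
      by_contra hall
      push Not at hall
      exact ha (βk.repr.map_eq_zero_iff.mp (Finsupp.ext hall))
    have key : ∀ z : σ.VA ⊗[K] F, ∃ c : σ.VA, βL.repr (σ.incl F z) i = (c : L) ∧
        βk.repr (σ.redT F z) i = σ.red c := fun z => by
      induction z using TensorProduct.induction_on with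
      | zero => exact ⟨0, by simp, by simp⟩
      | tmul x y =>
        refine ⟨x * algebraMap K σ.VA (β.repr y i), ?_, ?_⟩
        · simp [βL, incl, Algebra.TensorProduct.basis_repr_tmul]
        · simp [βk, redT, Algebra.TensorProduct.basis_repr_tmul]
      | add x y hx hy =>
        obtain ⟨c, h1, h2⟩ := hx
        obtain ⟨c', h1', h2'⟩ := hy
        exact ⟨c + c', by simp [h1, h1'], by simp [h2, h2']⟩
    let ev : (L ⊗[K] F) →ₗ[L] L := (Finsupp.lapply i).comp βL.repr.toLinearMap
    have hW' : n ≤ Module.finrank L ↥(W ⊓ LinearMap.ker ev) := by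
      have h1 := LinearMap.finrank_range_add_finrank_ker (ev.comp W.subtype)
      have h2 : Module.finrank L (LinearMap.range (ev.comp W.subtype)) ≤ 1 :=
        (Submodule.finrank_le _).trans (Module.finrank_self L).le
      have h3 : Module.finrank L (LinearMap.ker (ev.comp W.subtype)) =
          Module.finrank L ↥(W ⊓ LinearMap.ker ev) := by
        rw [LinearMap.ker_comp, ← Submodule.map_comap_subtype]
        exact (LinearEquiv.finrank_eq (Submodule.equivSubtypeMap W _))
      omega
    have : FiniteDimensional L ↥(W ⊓ LinearMap.ker ev) :=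
      Submodule.finiteDimensional_of_le inf_le_left
    obtain ⟨W₁, hW₁le, hW₁⟩ := exists_finrank_eq_le hW'
    obtain ⟨b, hb, hbind⟩ := ih W₁ (Submodule.finiteDimensional_of_le hW₁le) hW₁
    refine ⟨Fin.cons a b, fun j => ?_, ?_⟩
    · refine Fin.cases ?_ (fun j => ?_) j
      · simpa [hl, smul_smul] using W.smul_mem l⁻¹ hw
      · simpa using (hW₁le (hb j)).1
    · rw [show (fun j => σ.redT F ((Fin.cons a b : Fin (n + 1) → _) j)) =
        Fin.cons (σ.redT F a) (fun j => σ.redT F (b j)) from
          funext fun j => Fin.cases rfl (fun _ => rfl) j]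
      refine linearIndependent_finCons.mpr ⟨hbind, fun hmem => hi ?_⟩
      have hzero : ∀ j, βk.repr (σ.redT F (b j)) i = 0 := fun j => by
        obtain ⟨c, h1, h2⟩ := key (b j)
        have h0 : βL.repr (σ.incl F (b j)) i = 0 := (hW₁le (hb j)).2
        rw [h1] at h0
        rw [h2, show c = 0 from Subtype.ext h0, map_zero]
      suffices ∀ z ∈ Submodule.span k (Set.range fun j => σ.redT F (b j)), βk.repr z i = 0 from
        this _ hmem
      intro z hz
      induction hz using Submodule.span_induction with
      | mem z hz => obtain ⟨j, rfl⟩ := hz; exact hzero j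
      | zero => simp
      | add x y _ _ hx hy => simp [hx, hy]
      | smul c x _ hx => simp [hx]
where
  exists_finrank_eq_le {n : ℕ} {W : Submodule L (L ⊗[K] F)} [FiniteDimensional L W]
      (h : n ≤ Module.finrank L W) :
      ∃ W₁ : Submodule L (L ⊗[K] F), W₁ ≤ W ∧ Module.finrank L W₁ = n := by
    obtain ⟨v, hv⟩ := exists_linearIndependent_of_le_finrank h
    refine ⟨(Submodule.span L (Set.range v)).map W.subtype, Submodule.map_subtype_le _ _, ?_⟩
    rw [← LinearEquiv.finrank_eq (Submodule.equivSubtypeMap W _),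
      finrank_span_eq_card hv, Fintype.card_fin]

end Spz

end FermatLib.AV.Tors
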